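import Mathlib
import Fermat.Agent.S25.H567.GeomIntegral

/-!
# S26 / block CUBE / leaf C4c (helper841): sums of irreducible closed subsets
-/

set_option autoImplicit false
set_option linter.style.haveILetI false
set_option linter.unusedSectionVars false

universe u

open CategoryTheory CategoryTheory.Limits AlgebraicGeometry TopologicalSpace

namespace Fermat.Agent.S26.H841

noncomputable section

/-! ## 1. The reduced induced closed subscheme structure on a closed subset -/

section ReducedInduced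

variable {X : Scheme.{u}} (Z : Closeds X)

/-- The reduced induced closed subscheme on the closed subset `Z`. -/
abbrev redSub : Scheme.{u} := (Scheme.IdealSheafData.vanishingIdeal Z).subscheme

/-- The closed immersion of the reduced induced subscheme. -/
abbrev redSubι : redSub Z ⟶ X := (Scheme.IdealSheafData.vanishingIdeal Z).subschemeι

lemma range_redSubι : Set.range (redSubι Z) = (Z : Set X) := by
  rw [Scheme.IdealSheafData.range_subschemeι]
  simp

instance isReduced_redSub : IsReduced (redSub Z) := by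
  refine @IsReduced.of_openCover _
    (Scheme.IdealSheafData.vanishingIdeal Z).subschemeCover.openCover ?_
  intro (U : X.affineOpens)
  change IsReduced (Spec (.of (Γ(X, U.1) ⧸ (Scheme.IdealSheafData.vanishingIdeal Z).ideal U)))
  have hrad : ((Scheme.IdealSheafData.vanishingIdeal Z).ideal U).IsRadical := by
    rw [Scheme.IdealSheafData.vanishingIdeal_ideal]
    exact PrimeSpectrum.isRadical_vanishingIdeal _
  haveI : _root_.IsReduced (Γ(X, U.1) ⧸ (Scheme.IdealSheafData.vanishingIdeal Z).ideal U) :=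
    (Ideal.isRadical_iff_quotient_reduced _).1 hrad
  infer_instance

/-- A space with an inducing map onto an irreducible set is irreducible. -/
lemma irreducibleSpace_of_isInducing_range {A X : Type*} [TopologicalSpace A] [TopologicalSpace X]
    {e : A → X} (he : Topology.IsInducing e) (h : IsIrreducible (Set.range e)) :
    IrreducibleSpace A := by
  obtain ⟨-, a, rfl⟩ := h.nonempty
  haveI : Nonempty A := ⟨a⟩
  refine { isPreirreducible_univ := ?_, toNonempty := ⟨a⟩ }
  intro u v hu hv hxu hyv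
  obtain ⟨u', hu', rfl⟩ := he.isOpen_iff.1 hu
  obtain ⟨v', hv', rfl⟩ := he.isOpen_iff.1 hv
  obtain ⟨x, -, hx⟩ := hxu
  obtain ⟨y, -, hy⟩ := hyv
  obtain ⟨-, ⟨w, rfl⟩, hw1, hw2⟩ := h.2 u' v' hu' hv' ⟨e x, ⟨x, rfl⟩, hx⟩ ⟨e y, ⟨y, rfl⟩, hy⟩
  exact ⟨w, Set.mem_univ _, hw1, hw2⟩

lemma irreducibleSpace_redSub (hZ : IsIrreducible (Z : Set X)) : IrreducibleSpace (redSub Z) := by
  have h : IsIrreducible (Set.range (redSubι Z)) := by rw [range_redSubι]; exact hZ
  exact irreducibleSpace_of_isInducing_range (redSubι Z).isEmbedding.isInducing h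

lemma isIntegral_redSub (hZ : IsIrreducible (Z : Set X)) : IsIntegral (redSub Z) := by
  haveI := irreducibleSpace_redSub Z hZ
  exact isIntegral_of_irreducibleSpace_of_isReduced _

end ReducedInduced

/-! ## 2. Products of irreducible closed subsets over an algebraically closed field -/

section Product

variable {k : Type u} [Field k] [IsAlgClosed k] {X Y : Scheme.{u}}
  (f : X ⟶ Spec (CommRingCat.of k)) (g : Y ⟶ Spec (CommRingCat.of k))

/-- **Products of irreducible sets are irreducible** (over an algebraically closed field):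
`B ⊆ X` irreducible, `Γ ⊆ Y` irreducible and closed, `Y` locally noetherian; then
`B × Γ = p₁⁻¹ B ∩ p₂⁻¹ Γ ⊆ X ×ₖ Y` is irreducible. -/
theorem isIrreducible_prod [IsLocallyNoetherian Y] {B : Set X} (hB : IsIrreducible B)
    {Γ : Set Y} (hΓ : IsIrreducible Γ) (hΓc : IsClosed Γ) :
    IsIrreducible ((pullback.fst f g) ⁻¹' B ∩ (pullback.snd f g) ⁻¹' Γ) := by
  let Z : Closeds Y := ⟨Γ, hΓc⟩
  let ι : redSub Z ⟶ Y := redSubι Z
  have hι : Set.range ι = Γ := range_redSubι Z
  haveI : IsIntegral (redSub Z) := isIntegral_redSub Z hΓ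
  haveI : IsLocallyNoetherian (redSub Z) := LocallyOfFiniteType.isLocallyNoetherian ι
  haveI : GeometricallyIntegral (ι ≫ g) :=
    Fermat.Agent.S25.H567.geometricallyIntegral_of_isAlgClosed (ι ≫ g)
  let p : pullback f (ι ≫ g) ⟶ X := pullback.fst f (ι ≫ g)
  have hW : IsIrreducible (p ⁻¹' B) := p.isIrreducible_preimage p.isOpenMap hB
  let j : pullback f (ι ≫ g) ⟶ pullback f g :=
    pullback.map f (ι ≫ g) f g (𝟙 X) ι (𝟙 _) (by simp) (by simp)
  have hj1 : j ≫ pullback.fst f g = p := by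
    simp only [j, p, pullback.map]
    rw [pullback.lift_fst]
    simp
  have hj2 : j ≫ pullback.snd f g = pullback.snd f (ι ≫ g) ≫ ι := by
    simp only [j, pullback.map]
    rw [pullback.lift_snd]
  have himg : j '' (p ⁻¹' B) = (pullback.fst f g) ⁻¹' B ∩ (pullback.snd f g) ⁻¹' Γ := by
    ext y
    constructor
    · rintro ⟨z, hz, rfl⟩
      refine ⟨?_, ?_⟩
      · show pullback.fst f g (j z) ∈ B
        rw [← Scheme.Hom.comp_apply, hj1]
        exact hz
      · show pullback.snd f g (j z) ∈ Γ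
        rw [← Scheme.Hom.comp_apply, hj2, Scheme.Hom.comp_apply, ← hι]
        exact ⟨_, rfl⟩
    · rintro ⟨hy1, hy2⟩
      have hy : y ∈ Set.range j := by
        rw [Scheme.Pullback.range_map]
        refine ⟨⟨pullback.fst f g y, rfl⟩, ?_⟩
        show pullback.snd f g y ∈ Set.range ι
        rw [hι]
        exact hy2
      obtain ⟨z, rfl⟩ := hy
      refine ⟨z, ?_, rfl⟩
      show p z ∈ B
      rw [← hj1, Scheme.Hom.comp_apply]
      exact hy1
  rw [← himg]
  exact hW.image j j.continuous.continuousOn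

end Product

/-! ## 3. The sum of two subsets with respect to an "addition" morphism -/

section Sum

variable {k : Type u} [Field k] [IsAlgClosed k] {A : Scheme.{u}}
  (a : A ⟶ Spec (CommRingCat.of k)) (m : pullback a a ⟶ A)

/-- `B + Γ`: the image of `B × Γ ⊆ A ×ₖ A` under the "addition" `m`. -/
def sumSet (B Γ : Set A) : Set A :=
  m '' ((pullback.fst a a) ⁻¹' B ∩ (pullback.snd a a) ⁻¹' Γ)

/-- `B + Γ` is irreducible if `B` and `Γ` are (and `Γ` is closed). -/
theorem isIrreducible_sumSet [IsLocallyNoetherian A] {B Γ : Set A} (hB : IsIrreducible B)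
    (hΓ : IsIrreducible Γ) (hΓc : IsClosed Γ) : IsIrreducible (sumSet a m B Γ) :=
  (isIrreducible_prod a a hB hΓ hΓc).image m m.continuous.continuousOn

/-- A `k`-morphism `A ×ₖ A ⟶ A` is proper if `A` is proper over `k`. -/
theorem isProper_of_comp_eq [IsProper a] (hm : m ≫ a = pullback.fst a a ≫ a) : IsProper m := by
  haveI : IsProper (m ≫ a) := by rw [hm]; infer_instance
  exact IsProper.of_comp m a

/-- `B + Γ` is closed if `B` and `Γ` are and `A` is proper. -/
theorem isClosed_sumSet [IsProper a] (hm : m ≫ a = pullback.fst a a ≫ a) {B Γ : Set A}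
    (hB : IsClosed B) (hΓ : IsClosed Γ) : IsClosed (sumSet a m B Γ) := by
  haveI : IsProper m := isProper_of_comp_eq a m hm
  exact m.isClosedMap _ ((hB.preimage (pullback.fst a a).continuous).inter
    (hΓ.preimage (pullback.snd a a).continuous))

variable (o : Spec (CommRingCat.of k) ⟶ A) (ho : o ≫ a = 𝟙 _)

/-- `B ⊆ B + Γ` if `0 ∈ Γ` (right unit law). -/
theorem subset_sumSet_left
    (hunit : pullback.lift (𝟙 A) (a ≫ o) (by rw [Category.assoc, ho]; simp) ≫ m = 𝟙 A)
    {B Γ : Set A} (hΓ : Set.range o ⊆ Γ) : B ⊆ sumSet a m B Γ := by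
  intro b hb
  refine ⟨pullback.lift (𝟙 A) (a ≫ o) (by rw [Category.assoc, ho]; simp) b, ⟨?_, ?_⟩, ?_⟩
  · show pullback.fst a a (pullback.lift (𝟙 A) (a ≫ o) _ b) ∈ B
    rw [← Scheme.Hom.comp_apply, pullback.lift_fst]
    exact hb
  · show pullback.snd a a (pullback.lift (𝟙 A) (a ≫ o) _ b) ∈ Γ
    rw [← Scheme.Hom.comp_apply, pullback.lift_snd, Scheme.Hom.comp_apply]
    exact hΓ ⟨_, rfl⟩
  · rw [← Scheme.Hom.comp_apply, hunit]
    rfl

/-- `Γ ⊆ B + Γ` if `0 ∈ B` (left unit law). -/
theorem subset_sumSet_right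
    (hunit : pullback.lift (a ≫ o) (𝟙 A) (by rw [Category.assoc, ho]; simp) ≫ m = 𝟙 A)
    {B Γ : Set A} (hB : Set.range o ⊆ B) : Γ ⊆ sumSet a m B Γ := by
  intro c hc
  refine ⟨pullback.lift (a ≫ o) (𝟙 A) (by rw [Category.assoc, ho]; simp) c, ⟨?_, ?_⟩, ?_⟩
  · show pullback.fst a a (pullback.lift (a ≫ o) (𝟙 A) _ c) ∈ B
    rw [← Scheme.Hom.comp_apply, pullback.lift_fst, Scheme.Hom.comp_apply]
    exact hB ⟨_, rfl⟩
  · show pullback.snd a a (pullback.lift (a ≫ o) (𝟙 A) _ c) ∈ Γ
    rw [← Scheme.Hom.comp_apply, pullback.lift_snd]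
    exact hc
  · rw [← Scheme.Hom.comp_apply, hunit]
    rfl

end Sum

/-! ## 4. `k`-points of `B + Γ` -/

section KPoints

variable {k : Type u} [Field k] [IsAlgClosed k] {A : Scheme.{u}}
  (a : A ⟶ Spec (CommRingCat.of k)) (m : pullback a a ⟶ A)

/-- The image of a `k`-point is a closed point. -/
theorem isClosed_singleton_kpoint [LocallyOfFiniteType a] (x : Spec (CommRingCat.of k) ⟶ A)
    (hx : x ≫ a = 𝟙 _) : IsClosed ({x (IsLocalRing.closedPoint k)} : Set A) :=
  (pointEquivClosedPoint a ⟨x, hx⟩).2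

/-- The range of a `k`-point is a singleton. -/
theorem range_kpoint (x : Spec (CommRingCat.of k) ⟶ A) :
    Set.range x = {x (IsLocalRing.closedPoint k)} := by
  ext y
  constructor
  · rintro ⟨t, rfl⟩
    rw [Subsingleton.elim t (IsLocalRing.closedPoint k)]
    rfl
  · rintro rfl
    exact ⟨_, rfl⟩

/-- **`k`-points of `B + Γ` are sums of `k`-points of `B` and `Γ`.** -/
theorem exists_kpoints_of_mem_sumSet [LocallyOfFiniteType a]
    (hm : m ≫ a = pullback.fst a a ≫ a) {B Γ : Set A} (hB : IsClosed B) (hΓ : IsClosed Γ)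
    (x : Spec (CommRingCat.of k) ⟶ A) (hx : x ≫ a = 𝟙 _)
    (hxs : Set.range x ⊆ sumSet a m B Γ) :
    ∃ (q r : Spec (CommRingCat.of k) ⟶ A) (hq : q ≫ a = 𝟙 _) (hr : r ≫ a = 𝟙 _),
      Set.range q ⊆ B ∧ Set.range r ⊆ Γ ∧
        pullback.lift q r (by rw [hq, hr]) ≫ m = x := by
  set pt : A := x (IsLocalRing.closedPoint k) with hpt
  have hptc : IsClosed ({pt} : Set A) := isClosed_singleton_kpoint a x hx
  obtain ⟨z₀, ⟨hz₀B, hz₀Γ⟩, hz₀m⟩ := hxs ⟨IsLocalRing.closedPoint k, rfl⟩
  haveI : LocallyOfFiniteType (pullback.fst a a ≫ a) := inferInstance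
  haveI : JacobsonSpace (pullback a a : Scheme.{u}) :=
    LocallyOfFiniteType.jacobsonSpace (pullback.fst a a ≫ a)
  let F : Set (pullback a a : Scheme.{u}) :=
    ((pullback.fst a a) ⁻¹' B ∩ (pullback.snd a a) ⁻¹' Γ) ∩ m ⁻¹' {pt}
  have hFc : IsClosed F :=
    ((hB.preimage (pullback.fst a a).continuous).inter
      (hΓ.preimage (pullback.snd a a).continuous)).inter (hptc.preimage m.continuous)
  have hFne : F.Nonempty := ⟨z₀, ⟨hz₀B, hz₀Γ⟩, hz₀m⟩
  obtain ⟨z₁, ⟨⟨hz₁B, hz₁Γ⟩, hz₁m⟩, hz₁c⟩ := nonempty_inter_closedPoints hFne hFc.isLocallyClosed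
  have hz₁c' : IsClosed ({z₁} : Set (pullback a a : Scheme.{u})) := hz₁c
  let zz : Spec (CommRingCat.of k) ⟶ pullback a a :=
    pointOfClosedPoint (pullback.fst a a ≫ a) z₁ hz₁c'
  have hzz : zz ≫ pullback.fst a a ≫ a = 𝟙 _ := pointOfClosedPoint_comp _ _ _
  have hzz' : zz ≫ pullback.snd a a ≫ a = 𝟙 _ := by rw [← pullback.condition]; exact hzz
  have hzzpt : ∀ t, zz t = z₁ := fun t => pointOfClosedPoint_apply _ _ _ t
  refine ⟨zz ≫ pullback.fst a a, zz ≫ pullback.snd a a, by rw [Category.assoc]; exact hzz,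
    by rw [Category.assoc]; exact hzz', ?_, ?_, ?_⟩
  · rintro _ ⟨t, rfl⟩
    rw [Scheme.Hom.comp_apply, hzzpt]
    exact hz₁B
  · rintro _ ⟨t, rfl⟩
    rw [Scheme.Hom.comp_apply, hzzpt]
    exact hz₁Γ
  · have hlift : pullback.lift (zz ≫ pullback.fst a a) (zz ≫ pullback.snd a a)
        (by rw [Category.assoc, Category.assoc, pullback.condition]) = zz := by
      apply pullback.hom_ext
      · rw [pullback.lift_fst]
      · rw [pullback.lift_snd]
    rw [hlift]
    refine ext_of_apply_closedPoint_eq a ?_ hx ?_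
    · rw [Category.assoc, hm]; exact hzz
    · exact (congrArg m (hzzpt _)).trans hz₁m

end KPoints

/-! ## 5. Chains of irreducible closed subsets of a locally noetherian scheme are finite -/

section Chains

variable {X : Scheme.{u}}

/-- In a locally noetherian scheme every point has finite codimension. -/
theorem coheight_lt_top_of_isLocallyNoetherian [IsLocallyNoetherian X] (x : X) :
    Order.coheight x < ⊤ := by
  have h := ringKrullDim_stalk_eq_coheight x
  have h2 : ringKrullDim (X.presheaf.stalk x) < ⊤ := ringKrullDim_lt_top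
  rw [h, ← WithBot.coe_top, WithBot.coe_lt_coe] at h2
  exact h2

/-- The codimension of (the closure of) a point, as a natural number. -/
def ptCodim (x : X) : ℕ := (Order.coheight x).toNat

theorem ptCodim_lt [IsLocallyNoetherian X] {x y : X} (h : y < x) : ptCodim x < ptCodim y := by
  have h1 := Order.coheight_strictAnti h (coheight_lt_top_of_isLocallyNoetherian x)
  have hx := coheight_lt_top_of_isLocallyNoetherian x
  have hy := coheight_lt_top_of_isLocallyNoetherian y
  obtain ⟨n, hn⟩ := ENat.ne_top_iff_exists.mp hx.ne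
  obtain ⟨n', hn'⟩ := ENat.ne_top_iff_exists.mp hy.ne
  rw [← hn, ← hn'] at h1
  simp only [ptCodim, ← hn, ← hn', ENat.toNat_natCast]
  exact_mod_cast h1

/-- Strict inclusions of irreducible closed subsets give strict specializations of their
generic points. -/
theorem genericPoint_lt_of_ssubset {Z Z' : Set X} {z z' : X} (hz : IsGenericPoint z Z)
    (hz' : IsGenericPoint z' Z') (h : Z ⊆ Z') (hne : Z ≠ Z') : z < z' := by
  have h1 : z' ⤳ z := by
    rw [specializes_iff_mem_closure, hz'.def]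
    exact h hz.mem
  refine ⟨h1, fun h2 => hne ?_⟩
  have h2' : z ⤳ z' := h2
  have : z = z' := (h2'.antisymm h1).eq
  rw [← hz.def, ← hz'.def, this]

/-- **Maximal irreducible closed subsets with a property exist** in a locally noetherian scheme
(chains of irreducible closed subsets through a given one are finite). -/
theorem exists_maximal_isIrreducible_isClosed [IsLocallyNoetherian X] (P : Set X → Prop)
    (Z₀ : Set X) (h₀ : IsIrreducible Z₀) (h₀c : IsClosed Z₀) (hP : P Z₀) :
    ∃ Z, IsIrreducible Z ∧ IsClosed Z ∧ Z₀ ⊆ Z ∧ P Z ∧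
      ∀ Z', IsIrreducible Z' → IsClosed Z' → Z ⊆ Z' → P Z' → Z' = Z := by
  classical
  -- the set of codimensions of the generic points of the admissible `Z`
  let S : Set ℕ := {n | ∃ Z z, IsIrreducible Z ∧ IsClosed Z ∧ Z₀ ⊆ Z ∧ P Z ∧
    IsGenericPoint z Z ∧ ptCodim z = n}
  obtain ⟨z₀, hz₀⟩ := QuasiSober.sober h₀ h₀c
  have hS : S.Nonempty := ⟨_, Z₀, z₀, h₀, h₀c, le_rfl, hP, hz₀, rfl⟩
  obtain ⟨Z, z, hZ, hZc, hZ₀, hPZ, hz, hn⟩ := Nat.sInf_mem hS
  refine ⟨Z, hZ, hZc, hZ₀, hPZ, ?_⟩
  intro Z' hZ' hZ'c hZZ' hPZ'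
  by_contra hne
  obtain ⟨z', hz'⟩ := QuasiSober.sober hZ' hZ'c
  have hlt : z < z' := genericPoint_lt_of_ssubset hz hz' hZZ' (fun h => hne h.symm)
  have h1 : ptCodim z' < ptCodim z := ptCodim_lt hlt
  have h2 : sInf S ≤ ptCodim z' :=
    Nat.sInf_le ⟨Z', z', hZ', hZ'c, hZ₀.trans hZZ', hPZ', hz', rfl⟩
  omega

end Chains

/-! ## 6. Curves generate: the abstract climbing argument -/

section Generate

variable {k : Type u} [Field k] [IsAlgClosed k] {A : Scheme.{u}}
  (a : A ⟶ Spec (CommRingCat.of k)) (m : pullback a a ⟶ A)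
  (o : Spec (CommRingCat.of k) ⟶ A) (ho : o ≫ a = 𝟙 _)

/-- **Curves generate (abstract form).**  Let `A` be proper over an algebraically closed field
`k`, with a `k`-morphism `m : A ×ₖ A ⟶ A` and a `k`-point `o` which is a two-sided unit for `m`.
Let `H` be a set of `k`-points containing `o` and closed under `m`.  Suppose that every
irreducible closed `B ∋ o`, `B ≠ A`, admits an irreducible closed `Γ ∋ o` with `Γ ⊄ B` all of
whose `k`-points lie in `H`.  Then `H` contains all `k`-points. -/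
theorem kpoints_generated [IsProper a]
    (hm : m ≫ a = pullback.fst a a ≫ a)
    (hunitr : pullback.lift (𝟙 A) (a ≫ o) (by rw [Category.assoc, ho]; simp) ≫ m = 𝟙 A)
    (hunitl : pullback.lift (a ≫ o) (𝟙 A) (by rw [Category.assoc, ho]; simp) ≫ m = 𝟙 A)
    (H : (Spec (CommRingCat.of k) ⟶ A) → Prop) (hHo : H o)
    (hHadd : ∀ (q r : Spec (CommRingCat.of k) ⟶ A) (hq : q ≫ a = 𝟙 _) (hr : r ≫ a = 𝟙 _),
      H q → H r → H (pullback.lift q r (by rw [hq, hr]) ≫ m))
    (hcurve : ∀ B : Set A, IsIrreducible B → IsClosed B → Set.range o ⊆ B → B ≠ Set.univ →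
      ∃ Γ : Set A, IsIrreducible Γ ∧ IsClosed Γ ∧ Set.range o ⊆ Γ ∧ ¬ Γ ⊆ B ∧
        ∀ x : Spec (CommRingCat.of k) ⟶ A, x ≫ a = 𝟙 _ → Set.range x ⊆ Γ → H x)
    (x : Spec (CommRingCat.of k) ⟶ A) (hx : x ≫ a = 𝟙 _) : H x := by
  haveI : IsLocallyNoetherian A := LocallyOfFiniteType.isLocallyNoetherian a
  let P : Set A → Prop := fun Z =>
    ∀ y : Spec (CommRingCat.of k) ⟶ A, y ≫ a = 𝟙 _ → Set.range y ⊆ Z → H y
  have hZ₀irr : IsIrreducible (Set.range o) := by
    rw [range_kpoint]; exact isIrreducible_singleton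
  have hZ₀c : IsClosed (Set.range o) := by
    rw [range_kpoint]; exact isClosed_singleton_kpoint a o ho
  have hP₀ : P (Set.range o) := by
    intro y hy hyo
    have : y = o := by
      refine ext_of_apply_closedPoint_eq a hy ho ?_
      have h1 := hyo ⟨IsLocalRing.closedPoint k, rfl⟩
      rw [range_kpoint] at h1
      exact h1
    rw [this]; exact hHo
  obtain ⟨Z, hZ, hZc, hZ₀, hPZ, hmax⟩ :=
    exists_maximal_isIrreducible_isClosed P (Set.range o) hZ₀irr hZ₀c hP₀
  by_cases hZu : Z = Set.univ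
  · exact hPZ x hx (by rw [hZu]; exact Set.subset_univ _)
  · exfalso
    obtain ⟨Γ, hΓ, hΓc, hoΓ, hΓZ, hΓH⟩ := hcurve Z hZ hZc hZ₀ hZu
    have h1 : IsIrreducible (sumSet a m Z Γ) := isIrreducible_sumSet a m hZ hΓ hΓc
    have h2 : IsClosed (sumSet a m Z Γ) := isClosed_sumSet a m hm hZc hΓc
    have h3 : Z ⊆ sumSet a m Z Γ := subset_sumSet_left a m o ho hunitr hoΓ
    have h4 : Γ ⊆ sumSet a m Z Γ := subset_sumSet_right a m o ho hunitl hZ₀
    have h5 : P (sumSet a m Z Γ) := by
      intro y hy hys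
      obtain ⟨q, r, hq, hr, hqZ, hrΓ, hqr⟩ :=
        exists_kpoints_of_mem_sumSet a m hm hZc hΓc y hy hys
      rw [← hqr]
      exact hHadd q r hq hr (hPZ q hq hqZ) (hΓH r hr hrΓ)
    have h6 := hmax _ h1 h2 h3 h5
    exact hΓZ (h6 ▸ h4)

end Generate

end

end Fermat.Agent.S26.H841
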